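import Fermat.Agent.AV.Scheme.Integral
import Fermat.Agent.Curves.Existence

/-!
# A proper smooth integral curve over an algebraically closed field

Its function field, and the local rings of its points as subrings of the function field.
-/

set_option autoImplicit false
set_option linter.style.haveILetI false

noncomputable section

universe u

open CategoryTheory AlgebraicGeometry TopologicalSpace IsLocalRing AlgebraicCurve

namespace FLTAgent.PicScheme

/-- A proper smooth integral curve over `k`. -/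
structure Crv (k : Type u) [Field k] where
  /-- the scheme -/
  C : Scheme.{u}
  /-- the structure map -/
  c : C ⟶ Spec (CommRingCat.of k)
  proper : IsProper c
  smooth : SmoothOfRelativeDimension 1 c
  integral : IsIntegral C

namespace Crv

variable {k : Type u} [Field k]

/-- The curve with the given structure map. -/
protected def of {C : Scheme.{u}} (c : C ⟶ Spec (CommRingCat.of k)) [IsProper c]
    [SmoothOfRelativeDimension 1 c] [IsIntegral C] : Crv k :=
  ⟨C, c, inferInstance, inferInstance, inferInstance⟩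

variable (X : Crv k)

instance : IsProper X.c := X.proper

instance : SmoothOfRelativeDimension 1 X.c := X.smooth

instance : IsIntegral X.C := X.integral

/-- The constants in a stalk. -/
def constX (z : X.C) : k →+* X.C.presheaf.stalk z :=
  (X.C.presheaf.germ ⊤ z trivial).hom.comp (AV.Var.baseHom X.c ⊤)

theorem baseHom_res {V W : X.C.Opens} (h : W ≤ V) (a : k) :
    X.C.presheaf.map (homOfLE h).op (AV.Var.baseHom X.c V a) = AV.Var.baseHom X.c W a :=
  RingHom.congr_fun (congrArg CommRingCat.Hom.hom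
    (congrArg ((Scheme.ΓSpecIso (CommRingCat.of k)).inv ≫ ·)
      (Scheme.Hom.appLE_map X.c (U := ⊤) (V := V) le_top (homOfLE h).op))) a

theorem germ_baseHom {V : X.C.Opens} {z : X.C} (hz : z ∈ V) (a : k) :
    X.C.presheaf.germ V z hz (AV.Var.baseHom X.c V a) = X.constX z a := by
  rw [← baseHom_res X (le_top : V ≤ ⊤) a, TopCat.Presheaf.germ_res_apply]
  rfl

theorem fromSpec_c {V : X.C.Opens} (hV : IsAffineOpen V) :
    hV.fromSpec ≫ X.c = Spec.map (CommRingCat.ofHom (AV.Var.baseHom X.c V)) := by
  rw [← IsAffineOpen.SpecMap_appLE_fromSpec X.c (isAffineOpen_top _) hV (i := le_top),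
    IsAffineOpen.fromSpec_top, Scheme.isoSpec_Spec_inv, ← Spec.map_comp]
  rfl

theorem fromSpecStalk_c (z : X.C) :
    X.C.fromSpecStalk z ≫ X.c = Spec.map (CommRingCat.ofHom (X.constX z)) := by
  obtain ⟨V, hV, hz, -⟩ := AV.Var.exists_chart X.c 1 z
  rw [← hV.fromSpecStalk_eq_fromSpecStalk hz, IsAffineOpen.fromSpecStalk, Category.assoc,
    fromSpec_c X hV, ← Spec.map_comp]
  exact congrArg Spec.map (CommRingCat.hom_ext (RingHom.ext fun a => germ_baseHom X hz a))

/-- The function field. -/
abbrev FF : Type u := X.C.functionField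

/-- The generic point. -/
abbrev η : X.C := genericPoint X.C

theorem specializes (z : X.C) : X.η ⤳ z := (genericPoint_spec X.C).specializes trivial

instance : Algebra k X.FF := (X.constX X.η).toAlgebra

theorem algebraMap_eq (a : k) : algebraMap k X.FF a = X.constX X.η a := rfl

/-- A stalk inside the function field. -/
def toFF (z : X.C) : X.C.presheaf.stalk z →+* X.FF :=
  (X.C.presheaf.stalkSpecializes (X.specializes z)).hom

theorem toFF_injective (z : X.C) : Function.Injective (X.toFF z) :=
  IsFractionRing.injective (X.C.presheaf.stalk z) X.C.functionField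

theorem toFF_const (z : X.C) (a : k) : X.toFF z (X.constX z a) = algebraMap k X.FF a :=
  TopCat.Presheaf.germ_stalkSpecializes_apply X.C.presheaf (U := ⊤) trivial (X.specializes z) _

theorem toFF_specializes {z w : X.C} (h : z ⤳ w) (s : X.C.presheaf.stalk w) :
    X.toFF z (X.C.presheaf.stalkSpecializes h s) = X.toFF w s := by
  show X.C.presheaf.stalkSpecializes _ (X.C.presheaf.stalkSpecializes h s) = _
  rw [← CommRingCat.comp_apply, TopCat.Presheaf.stalkSpecializes_comp]
  rfl

theorem toFF_germ {V : X.C.Opens} [Nonempty V] {z : X.C} (hz : z ∈ V) (s : Γ(X.C, V)) :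
    X.toFF z (X.C.presheaf.germ V z hz s) = X.C.germToFunctionField V s :=
  Scheme.algebraMap_germ_eq_germToFunctionField X.C (x := z) hz s

theorem germToFF_const (V : X.C.Opens) [Nonempty V] (a : k) :
    X.C.germToFunctionField V (AV.Var.baseHom X.c V a) = algebraMap k X.FF a :=
  X.germ_baseHom _ a

theorem exists_div (z : X.C) (f : X.FF) :
    ∃ a b : X.C.presheaf.stalk z, b ≠ 0 ∧ f = X.toFF z a / X.toFF z b := by
  obtain ⟨a, b, hb, rfl⟩ := IsFractionRing.div_surjective (A := X.C.presheaf.stalk z) f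
  exact ⟨a, b, nonZeroDivisors.ne_zero hb, rfl⟩

/-- The local ring of a point. -/
def loc (z : X.C) : Subring X.FF := (X.toFF z).range

theorem loc_le {z w : X.C} (h : z ⤳ w) : X.loc w ≤ X.loc z := by
  rintro _ ⟨s, rfl⟩
  exact ⟨X.C.presheaf.stalkSpecializes h s, X.toFF_specializes h s⟩

theorem algebraMap_mem_loc (z : X.C) (a : k) : algebraMap k X.FF a ∈ X.loc z :=
  ⟨_, X.toFF_const z a⟩

theorem eq_η_of_loc_eq_top {z : X.C} (h : X.loc z = ⊤) : z = X.η := by
  have hb : Function.Bijective (X.toFF z) :=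
    ⟨X.toFF_injective z, fun f => by
      have hf : f ∈ X.loc z := h ▸ Subring.mem_top f
      exact hf⟩
  haveI : IsLocalHom (X.toFF z) := ⟨fun a ha => by
    have h' := ha.map (RingEquiv.ofBijective _ hb).symm
    rwa [show (RingEquiv.ofBijective _ hb).symm (X.toFF z a) = a from
      (RingEquiv.ofBijective _ hb).symm_apply_apply a] at h'⟩
  have h1 := congrArg (fun l => l (closedPoint (X.C.presheaf.stalk X.η)))
    (Scheme.SpecMap_stalkSpecializes_fromSpecStalk (X.specializes z))
  have h2 : (Spec.map (X.C.presheaf.stalkSpecializes (X.specializes z)))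
      (closedPoint (X.C.presheaf.stalk X.η)) = closedPoint (X.C.presheaf.stalk z) :=
    IsLocalRing.comap_closedPoint (X.toFF z)
  have h3 : X.C.fromSpecStalk z ((Spec.map (X.C.presheaf.stalkSpecializes (X.specializes z)))
      (closedPoint (X.C.presheaf.stalk X.η))) =
      X.C.fromSpecStalk X.η (closedPoint (X.C.presheaf.stalk X.η)) := h1
  exact ((Scheme.fromSpecStalk_closedPoint (x := z)).symm.trans
    ((congrArg (fun p => X.C.fromSpecStalk z p) h2).symm.trans h3)).trans
    Scheme.fromSpecStalk_closedPoint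

section AlgClosed

set_option maxHeartbeats 800000 in
theorem dvd_or_dvd (z : X.C) (x y : X.C.presheaf.stalk z) : x ∣ y ∨ y ∣ x := by
  obtain ⟨V, hV, hz, φ, hC, hφ⟩ := AV.Var.exists_chart X.c 1 z
  haveI : Nonempty V := ⟨⟨z, hz⟩⟩
  letI : Algebra k Γ(X.C, V) := (AV.Var.baseHom X.c V).toAlgebra
  letI : Algebra (MvPolynomial (Fin 1) k) Γ(X.C, V) := φ.toAlgebra
  haveI : Algebra.Etale (MvPolynomial (Fin 1) k) Γ(X.C, V) := hφ
  haveI : IsScalarTower k (MvPolynomial (Fin 1) k) Γ(X.C, V) :=
    IsScalarTower.of_algebraMap_eq fun a => (RingHom.congr_fun hC a).symm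
  set q := (hV.primeIdealOf ⟨z, hz⟩).asIdeal
  letI : Algebra Γ(X.C, V) (X.C.presheaf.stalk z) := (X.C.presheaf.germ V z hz).hom.toAlgebra
  haveI : IsLocalization.AtPrime (X.C.presheaf.stalk z) q := hV.isLocalization_stalk ⟨z, hz⟩
  haveI : IsDomain (Γ(X.C, V) ⧸ q) := Ideal.Quotient.isDomain q
  let L := FractionRing (Γ(X.C, V) ⧸ q)
  let ψ : Γ(X.C, V) →ₐ[k] L :=
    (IsScalarTower.toAlgHom k (Γ(X.C, V) ⧸ q) L).comp (Ideal.Quotient.mkₐ k q)
  have hker : q = RingHom.ker ψ := by
    ext s
    exact Ideal.Quotient.eq_zero_iff_mem.symm.trans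
      (map_eq_zero_iff (algebraMap (Γ(X.C, V) ⧸ q) L) (IsFractionRing.injective _ L)).symm
  let e := IsLocalization.algEquiv q.primeCompl (Localization.AtPrime q) (X.C.presheaf.stalk z)
  have h := AV.Chart.valuationRing_localization (K := k) 1 ψ (m := 0) le_rfl (by simp) q hker
    (e.symm x) (e.symm y)
  simpa using h.imp (map_dvd e) (map_dvd e)

theorem mem_or_inv_mem (z : X.C) (f : X.FF) : f ∈ X.loc z ∨ f⁻¹ ∈ X.loc z := by
  obtain ⟨a, b, hb, rfl⟩ := X.exists_div z f
  rcases X.dvd_or_dvd z a b with ⟨t, rfl⟩ | ⟨t, rfl⟩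
  · refine Or.inr ⟨t, ?_⟩
    rw [inv_div, map_mul, mul_div_cancel_left₀]
    exact (map_ne_zero_iff _ (X.toFF_injective z)).2 (left_ne_zero_of_mul hb)
  · refine Or.inl ⟨t, ?_⟩
    rw [map_mul, mul_div_cancel_left₀]
    exact (map_ne_zero_iff _ (X.toFF_injective z)).2 hb

/-- The local ring of a point as a valuation ring. -/
def valRing (z : X.C) : ValuationSubring X.FF where
  toSubring := X.loc z
  mem_or_inv_mem' := X.mem_or_inv_mem z

variable [IsAlgClosed k]

instance : Curves.IsFunctionField k X.FF := by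
  obtain ⟨V, hV, hη, φ, hC, hφ⟩ := AV.Var.exists_chart X.c 1 X.η
  haveI : Nonempty V := ⟨⟨_, hη⟩⟩
  letI : Algebra k Γ(X.C, V) := (AV.Var.baseHom X.c V).toAlgebra
  letI : Algebra (MvPolynomial (Fin 1) k) Γ(X.C, V) := φ.toAlgebra
  haveI : Algebra.Etale (MvPolynomial (Fin 1) k) Γ(X.C, V) := hφ
  haveI : IsScalarTower k (MvPolynomial (Fin 1) k) Γ(X.C, V) :=
    IsScalarTower.of_algebraMap_eq fun a => (RingHom.congr_fun hC a).symm
  haveI : IsScalarTower k Γ(X.C, V) X.FF :=
    IsScalarTower.of_algebraMap_eq fun a => (germ_baseHom X hη a).symm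
  haveI : IsFractionRing Γ(X.C, V) X.FF := functionField_isFractionRing_of_isAffineOpen X.C V hV
  haveI : Algebra.FiniteType k Γ(X.C, V) :=
    Algebra.FiniteType.trans (S := MvPolynomial (Fin 1) k) inferInstance inferInstance
  haveI : Algebra.EssFiniteType Γ(X.C, V) X.FF :=
    Algebra.EssFiniteType.of_isLocalization X.FF (nonZeroDivisors Γ(X.C, V))
  haveI : Algebra.EssFiniteType k X.FF := Algebra.EssFiniteType.comp k Γ(X.C, V) X.FF
  have htr : Algebra.trdeg k X.FF = 1 := by
    simpa using AV.Chart.trdeg_fractionRing (K := k) (S := Γ(X.C, V)) 1 X.FF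
  obtain ⟨x, hx⟩ : ∃ x : X.FF, Transcendental k x := by
    by_contra! h
    haveI : Algebra.IsAlgebraic k X.FF := ⟨fun x => not_not.1 (h x)⟩
    simp [trdeg_eq_zero (R := k) (A := X.FF)] at htr
  refine Curves.IsFunctionField.mk_of x hx ?_
  haveI : Algebra.IsAlgebraic (IntermediateField.adjoin k {x}) X.FF := by
    have hb : IsTranscendenceBasis k (fun _ : Fin 1 => x) := by
      refine AlgebraicIndependent.isTranscendenceBasis_of_lift_trdeg_le_of_finite
        ((algebraicIndependent_unique_type_iff (x := fun _ : Fin 1 => x)).2 hx) (by rw [htr]; exact le_of_eq (by simp))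
    have := hb.isAlgebraic_field
    rwa [Set.range_const] at this
  haveI : Algebra.EssFiniteType (IntermediateField.adjoin k {x}) X.FF :=
    Algebra.EssFiniteType.of_comp k _ _
  exact Algebra.finite_of_essFiniteType_of_isAlgebraic

end AlgClosed

end Crv

end FLTAgent.PicScheme
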