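import Fermat.Agent.PicScheme.Props.FromCharts
import Fermat.Agent.PicScheme.Rigid

/-!
# The only global functions of the curve are the constants
-/

set_option autoImplicit false
set_option linter.checkUnivs false
set_option linter.style.haveILetI false

noncomputable section

universe u

open CategoryTheory CategoryTheory.Limits AlgebraicGeometry AlgebraicGeometry.RelPicard
  NeronModelInfra GoodReductionJacobian

namespace FLTAgent.PicScheme

variable {k : Type u} [Field k] {C : Scheme.{u}} {c : C ⟶ Spec (CommRingCat.of k)}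
  {ε : SchemeHomOver (𝟙 (Spec (CommRingCat.of k))) c}

/-- Reading off a function from its morphism of spectra. -/
theorem appTop_specMap {A B : CommRingCat.{u}} (φ : A ⟶ B) (a : A) :
    (Spec.map φ).appTop.hom ((Scheme.ΓSpecIso A).inv.hom a) =
      (Scheme.ΓSpecIso B).inv.hom (φ.hom a) :=
  (ConcreteCategory.congr_hom (Scheme.ΓSpecIso_inv_naturality φ) a).symm

/-- On a proper integral scheme over an algebraically closed field every function is constant. -/
theorem exists_appTop_eq [IsAlgClosed k] [UniversallyClosed c] [LocallyOfFiniteType c]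
    [IsIntegral C] (s : Γ(C, ⊤)) :
    ∃ a : k, c.appTop.hom ((Scheme.ΓSpecIso (CommRingCat.of k)).inv.hom a) = s := by
  set e := (Scheme.ΓSpecIso (CommRingCat.of k)).symm.commRingCatIsoToRingEquiv
  set κ : k →+* Γ(C, ⊤) := c.appTop.hom.comp e.toRingHom
  have hfin : κ.Finite := by
    refine RingHom.Finite.comp (finite_appTop_of_universallyClosed k c) ?_
    exact RingHom.Finite.of_surjective _ e.surjective
  letI := (isField_of_universallyClosed k c).toField
  letI := κ.toAlgebra
  haveI : Module.Finite k Γ(C, ⊤) := hfin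
  haveI : Algebra.IsIntegral k Γ(C, ⊤) := Algebra.IsIntegral.of_finite k _
  obtain ⟨a, ha⟩ :=
    (IsAlgClosed.algebraMap_bijective_of_isIntegral (k := k) (K := Γ(C, ⊤))).2 s
  exact ⟨a, ha⟩

/-- The two charts have only constants in common. -/
theorem Frame.hasConst [IsAlgClosed k] [IsProper c] [SmoothOfRelativeDimension 1 c] [IsIntegral C]
    (F : Frame c ε) : HasConst F.X := by
  intro x y hxy
  set Q := CommRingCat.of (Polynomial k)
  set φ₁ : Q ⟶ CommRingCat.of F.X.B₁ :=
    CommRingCat.ofHom (Polynomial.aeval (R := k) x).toRingHom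
  set φ₂ : Q ⟶ CommRingCat.of F.X.B₂ :=
    CommRingCat.ofHom (Polynomial.aeval (R := k) y).toRingHom
  obtain ⟨g, hg₁, hg₂⟩ := F.exists_glue (Spec.map φ₁) (Spec.map φ₂) (by
    show Spec.map _ ≫ Spec.map φ₁ = Spec.map _ ≫ Spec.map φ₂
    rw [← Spec.map_comp, ← Spec.map_comp]
    refine congrArg Spec.map (CommRingCat.hom_ext ?_)
    show F.X.ι₁.toRingHom.comp (Polynomial.aeval (R := k) x).toRingHom =
      F.X.ι₂.toRingHom.comp (Polynomial.aeval (R := k) y).toRingHom
    refine RingHom.ext fun p => ?_
    show F.X.ι₁ (Polynomial.aeval x p) = F.X.ι₂ (Polynomial.aeval y p)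
    rw [← Polynomial.aeval_algHom_apply, ← Polynomial.aeval_algHom_apply, hxy])
  set s := g.appTop.hom ((Scheme.ΓSpecIso Q).inv.hom Polynomial.X)
  obtain ⟨a, ha⟩ := exists_appTop_eq (c := c) s
  have key : ∀ {B : Type u} [CommRing B] [Algebra k B] (j : SchemeHomOver (specT k B) c) (z : B),
      j.1 ≫ g = Spec.map (CommRingCat.ofHom (Polynomial.aeval (R := k) z).toRingHom) →
      z = algebraMap k B a := by
    intro B _ _ j z hz
    have h := congrArg (fun m : Γ(C, ⊤) => j.1.appTop.hom m) ha
    simp only [s] at h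
    rw [← RingHom.comp_apply, ← CommRingCat.hom_comp, ← Scheme.Hom.comp_appTop, j.2,
      ← RingHom.comp_apply j.1.appTop.hom g.appTop.hom, ← CommRingCat.hom_comp,
      ← Scheme.Hom.comp_appTop, hz, specT, appTop_specMap, appTop_specMap] at h
    have h' := congrArg (Scheme.ΓSpecIso (CommRingCat.of B)).hom.hom h
    simp only [Iso.inv_hom_id_apply] at h'
    rw [CommRingCat.hom_ofHom, CommRingCat.hom_ofHom] at h'
    exact ((Polynomial.aeval_X (R := k) z).symm.trans h'.symm)
  exact ⟨a, key F.j₁ x hg₁, key F.j₂ y hg₂⟩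

end FLTAgent.PicScheme
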