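import Fermat.Agent.PicScheme.Curve.Regular
import Fermat.Agent.PicScheme.Interface

/-!
# The curve as two charts

The charts are the open sets where a function vanishing at the base point, respectively its
inverse, is regular.
-/

set_option autoImplicit false
set_option linter.style.haveILetI false

noncomputable section

universe u

open CategoryTheory CategoryTheory.Limits AlgebraicGeometry AlgebraicGeometry.RelPicard
  NeronModelInfra AlgebraicCurve Polynomial IsLocalRing

namespace FLTAgent.PicScheme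

namespace Crv

variable {k : Type u} [Field k] [IsAlgClosed k] (C : Crv k)

theorem basicOpen_reg {x : C.FF} (hx : Transcendental k x) {f : Γ(C.C, C.reg x)}
    (hf : C.C.germToFunctionField (C.reg x) f = x) :
    C.C.basicOpen f = C.reg x ⊓ C.reg x⁻¹ := by
  refine TopologicalSpace.Opens.ext (Set.ext fun z => ?_)
  by_cases he : z = C.η
  · subst he
    refine iff_of_true ?_ ⟨η_mem_reg, η_mem_reg⟩
    show C.η ∈ C.C.basicOpen f
    rw [Scheme.mem_basicOpen C.C f _ η_mem_reg]
    have h : C.C.presheaf.germ (C.reg x) C.η η_mem_reg f ≠ 0 :=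
      hf.symm ▸ Curves.ne_zero_of_transcendental hx
    exact isUnit_iff_ne_zero.2 h
  · have hz := C.centre_placeAt z he
    rw [← hz]
    show C.centre _ ∈ C.C.basicOpen f ↔ C.centre _ ∈ C.reg x ∧ C.centre _ ∈ C.reg x⁻¹
    constructor
    · intro h
      have h1 : C.centre (C.placeAt z he) ∈ C.reg x := C.C.basicOpen_le f h
      refine ⟨h1, centre_mem_reg.2 ?_⟩
      have := ((centre_mem_basicOpen h1).1 h).2
      rw [hf] at this
      rw [Place.ord_inv, this]; rfl
    · rintro ⟨h1, h2⟩
      refine (centre_mem_basicOpen h1).2 ⟨hf.trans_ne (Curves.ne_zero_of_transcendental hx), ?_⟩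
      have a := centre_mem_reg.1 h1
      have b := centre_mem_reg.1 h2
      rw [Place.ord_inv] at b
      rw [hf]; omega

theorem finite_free_reg {x : C.FF} (hx : Transcendental k x) (f : Γ(C.C, C.reg x))
    (hf : C.C.germToFunctionField (C.reg x) f = x) :
    letI := (AV.Var.baseHom C.c (C.reg x)).toAlgebra
    letI := (Polynomial.aeval (R := k) f).toRingHom.toAlgebra
    Module.Finite k[X] Γ(C.C, C.reg x) ∧ Module.Free k[X] Γ(C.C, C.reg x) := by
  letI := (AV.Var.baseHom C.c (C.reg x)).toAlgebra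
  let φ : Γ(C.C, C.reg x) →ₐ[k] C.FF :=
    { (C.C.germToFunctionField (C.reg x)).hom with commutes' := C.germToFF_const (C.reg x) }
  have hφ : Function.Injective φ := Scheme.germToFunctionField_injective C.C (C.reg x)
  obtain ⟨B⟩ := Curves.nonempty_reducedBasis (K := k) hx
  choose b hb using fun i => mem_range_reg.2 (B.integral i)
  letI := (Polynomial.aeval (R := k) f).toRingHom.toAlgebra
  have hval : ∀ p, φ (Fintype.linearCombination k[X] b p) = ∑ i, aeval x (p i) * B.w i := by
    intro p
    rw [Fintype.linearCombination_apply, map_sum]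
    refine Finset.sum_congr rfl fun i _ => ?_
    rw [Algebra.smul_def, map_mul,
      show φ (algebraMap k[X] Γ(C.C, C.reg x) (p i)) = φ (aeval f (p i)) from rfl,
      ← aeval_algHom_apply]
    exact congrArg₂ (fun a b => aeval a (p i) * b) hf (hb i)
  have hbij : Function.Bijective (Fintype.linearCombination k[X] b) := by
    refine ⟨(injective_iff_map_eq_zero _).2 fun p hp => funext fun i => ?_, fun s => ?_⟩
    · have h := Fintype.linearIndependent_iff.1 B.indep
        (fun j => ⟨aeval x (p j), IntermediateField.algebra_adjoin_le_adjoin k {x}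
          (Polynomial.aeval_mem_adjoin_singleton k x)⟩)
        (by
          simp only [IntermediateField.smul_def, smul_eq_mul]
          rw [← hval p, hp, map_zero]) i
      by_contra hne
      exact Curves.aeval_ne_zero hx hne (congrArg Subtype.val h)
    · obtain ⟨p, hp⟩ := B.exists_polynomial_coord hx
        (mem_range_reg.1 ⟨s, rfl⟩ : Curves.IntegralWrt k x (φ s))
      refine ⟨p, hφ ?_⟩
      rw [hval]
      conv_rhs => rw [← B.sum_coord hx (φ s)]
      exact Finset.sum_congr rfl fun i _ => by rw [hp i]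
  let e := LinearEquiv.ofBijective _ hbij
  exact ⟨Module.Finite.equiv e, Module.Free.of_equiv e⟩

theorem finite_reg {x : C.FF} (hx : Transcendental k x) (f : Γ(C.C, C.reg x))
    (hf : C.C.germToFunctionField (C.reg x) f = x) :
    letI := (AV.Var.baseHom C.c (C.reg x)).toAlgebra
    RingHom.Finite (Polynomial.aeval (R := k) f).toRingHom :=
  (C.finite_free_reg hx f hf).1

theorem point_ne_η (e : Spec (CommRingCat.of k) ⟶ C.C) (he : e ≫ C.c = 𝟙 _) :
    e (closedPoint k) ≠ C.η := by
  obtain ⟨x, hx, -⟩ := Curves.IsFunctionField.exists_transcendental (K := k) (F := C.FF)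
  intro h
  let pt : Spec (CommRingCat.of k) := closedPoint (CommRingCat.of k)
  let σ := Scheme.stalkClosedPointTo (R := CommRingCat.of k) e
  have hst := Scheme.Spec_stalkClosedPointTo_fromSpecStalk (R := CommRingCat.of k) e
  have hσ : ∀ a, σ.hom (C.constX (e pt) a) = a := fun a => by
    have h1 := he
    rw [← hst, Category.assoc, C.fromSpecStalk_c, ← Spec.map_comp, ← Spec.map_id] at h1
    exact RingHom.congr_fun (congrArg CommRingCat.Hom.hom (Spec.map_injective h1)) a
  have hsurj : Function.Bijective (C.toFF (e pt)) := by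
    refine ⟨C.toFF_injective _, ?_⟩
    rw [show e pt = C.η from h]
    intro f
    exact ⟨f, by show C.C.presheaf.stalkSpecializes _ f = f
                 rw [TopCat.Presheaf.stalkSpecializes_refl]; rfl⟩
  let τ : C.FF →+* k := σ.hom.comp (RingEquiv.ofBijective _ hsurj).symm.toRingHom
  refine hx ⟨X - Polynomial.C (τ x), X_sub_C_ne_zero _, ?_⟩
  rw [map_sub, aeval_X, aeval_C, sub_eq_zero]
  refine τ.injective ?_
  show τ x = σ.hom ((RingEquiv.ofBijective _ hsurj).symm (algebraMap k C.FF (τ x)))
  rw [show (RingEquiv.ofBijective _ hsurj).symm (algebraMap k C.FF (τ x)) = C.constX (e pt) (τ x)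
    from (RingEquiv.symm_apply_eq _).2 (C.toFF_const (e pt) (τ x)).symm, hσ]

end Crv

set_option maxHeartbeats 1000000 in
/-- The curve has a frame. -/
theorem targetFrame : TargetFrame.{u} := by
  intro k _ _ C₀ c _ _ _ ε
  let C : Crv k := Crv.of c
  let e : Spec (CommRingCat.of k) ⟶ C.C := ε.1
  have he : e ≫ C.c = 𝟙 _ := ε.2
  let pt : Spec (CommRingCat.of k) := closedPoint (CommRingCat.of k)
  let P : C.C := e pt
  have hP : P ≠ C.η := C.point_ne_η e he
  let v := C.placeAt P hP
  obtain ⟨y, hy, hyv⟩ : ∃ y : C.FF, Transcendental k y ∧ 0 ≤ v.ord y := by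
    obtain ⟨x, hx, -⟩ := Curves.IsFunctionField.exists_transcendental (K := k) (F := C.FF)
    rcases le_or_gt 0 (v.ord x) with h | h
    · exact ⟨x, hx, h⟩
    · exact ⟨x⁻¹, Curves.transcendental_inv hx, by rw [v.ord_inv]; omega⟩
  have hy' : Transcendental k y⁻¹ := Curves.transcendental_inv hy
  let U₁ := C.reg y
  let U₂ := C.reg y⁻¹
  let W := U₁ ⊓ U₂
  have h1 : IsAffineOpen U₁ := C.isAffineOpen_reg hy
  have h2 : IsAffineOpen U₂ := C.isAffineOpen_reg hy'
  obtain ⟨f, hf⟩ := C.mem_range_reg.2 (Crv.integralWrt_self (x := y))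
  obtain ⟨g, hg⟩ := C.mem_range_reg.2 (Crv.integralWrt_self (x := y⁻¹))
  have hWf : W = C.C.basicOpen f := (C.basicOpen_reg hy hf).symm
  have hWg : W = C.C.basicOpen g := by
    rw [C.basicOpen_reg hy' hg, inv_inv, inf_comm]
  have hW : IsAffineOpen W := hWf ▸ h1.basicOpen f
  have hPU : P ∈ U₁ := C.centre_placeAt P hP ▸ Crv.centre_mem_reg.2 hyv
  letI a₁ : Algebra k Γ(C.C, U₁) := (AV.Var.baseHom C.c U₁).toAlgebra
  letI a₂ : Algebra k Γ(C.C, U₂) := (AV.Var.baseHom C.c U₂).toAlgebra
  letI a₀ : Algebra k Γ(C.C, W) := (AV.Var.baseHom C.c W).toAlgebra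
  let ι₁ : Γ(C.C, U₁) →ₐ[k] Γ(C.C, W) :=
    { (C.C.presheaf.map (homOfLE (inf_le_left : W ≤ U₁)).op).hom with
      commutes' := C.baseHom_res inf_le_left }
  let ι₂ : Γ(C.C, U₂) →ₐ[k] Γ(C.C, W) :=
    { (C.C.presheaf.map (homOfLE (inf_le_right : W ≤ U₂)).op).hom with
      commutes' := C.baseHom_res inf_le_right }
  let σ := Scheme.stalkClosedPointTo (R := CommRingCat.of k) e
  have hst := Scheme.Spec_stalkClosedPointTo_fromSpecStalk (R := CommRingCat.of k) e
  have hσ : ∀ a, σ.hom (C.constX P a) = a := fun a => by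
    have h := he
    rw [← hst, Category.assoc, C.fromSpecStalk_c, ← Spec.map_comp, ← Spec.map_id] at h
    exact RingHom.congr_fun (congrArg CommRingCat.Hom.hom (Spec.map_injective h)) a
  let π : Γ(C.C, U₁) →ₐ[k] k :=
    { σ.hom.comp (C.C.presheaf.germ U₁ P hPU).hom with
      commutes' := fun a => (congrArg σ.hom (C.germ_baseHom hPU a)).trans (hσ a) }
  haveI : Nonempty W := ⟨⟨C.η, Crv.η_mem_reg, Crv.η_mem_reg⟩⟩
  have hmul : ι₁ f * ι₂ g = 1 := by
    apply Scheme.germToFunctionField_injective C.C W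
    rw [map_mul, map_one]
    refine (congrArg₂ (· * ·) ?_ ?_).trans (mul_inv_cancel₀ (Curves.ne_zero_of_transcendental hy))
    · exact (TopCat.Presheaf.germ_res_apply C.C.presheaf _ _ _ f).trans hf
    · exact (TopCat.Presheaf.germ_res_apply C.C.presheaf _ _ _ g).trans hg
  let X : Charts k :=
    { B₁ := Γ(C.C, U₁), B₂ := Γ(C.C, U₂), B₀ := Γ(C.C, W), ι₁ := ι₁, ι₂ := ι₂, f := f, g := g
      mul_eq_one := hmul
      away₁ := h1.isLocalization_of_eq_basicOpen f (homOfLE inf_le_left) hWf
      away₂ := h2.isLocalization_of_eq_basicOpen g (homOfLE inf_le_right) hWg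
      finite₁ := C.finite_reg hy f hf
      finite₂ := C.finite_reg hy' g hg
      free₁ := (C.finite_free_reg hy f hf).2
      free₂ := (C.finite_free_reg hy' g hg).2
      pt := π }
  let j₁ : SchemeHomOver (specT k X.B₁) c := ⟨h1.fromSpec, C.fromSpec_c h1⟩
  let j₂ : SchemeHomOver (specT k X.B₂) c := ⟨h2.fromSpec, C.fromSpec_c h2⟩
  have e1 : (specHom X.ι₁).1 ≫ h1.fromSpec = hW.fromSpec := h1.map_fromSpec hW _
  have e2 : (specHom X.ι₂).1 ≫ h2.fromSpec = hW.fromSpec := h2.map_fromSpec hW _
  haveI : IsOpenImmersion j₁.1 := inferInstanceAs (IsOpenImmersion h1.fromSpec)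
  haveI : IsOpenImmersion j₂.1 := inferInstanceAs (IsOpenImmersion h2.fromSpec)
  haveI : IsOpenImmersion (specHom X.ι₂).1 := by
    haveI : IsOpenImmersion ((specHom X.ι₂).1 ≫ h2.fromSpec) := e2 ▸ inferInstance
    exact IsOpenImmersion.of_comp _ h2.fromSpec
  refine ⟨{ X := X, j₁ := j₁, j₂ := j₂, open₁ := inferInstance, open₂ := inferInstance
            cover := fun z => ?_, inter := ?_, point := ?_ }⟩
  · have hr : ∀ z : C.C, z ∈ U₁ ∨ z ∈ U₂ := fun z => by
      by_cases hz : z = C.η
      · exact Or.inl (hz ▸ Crv.η_mem_reg)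
      · rw [← C.centre_placeAt z hz]
        show C.centre _ ∈ C.reg y ∨ C.centre _ ∈ C.reg y⁻¹
        rw [Crv.centre_mem_reg, Crv.centre_mem_reg, Place.ord_inv]
        omega
    refine (hr z).imp (fun h => ?_) fun h => ?_
    · show z ∈ Set.range h1.fromSpec
      rw [h1.range_fromSpec]; exact h
    · show z ∈ Set.range h2.fromSpec
      rw [h2.range_fromSpec]; exact h
  · refine IsOpenImmersion.isPullback _ _ _ _ (e2.trans e1.symm) ?_
    refine TopologicalSpace.Opens.ext (Set.ext fun z => ?_)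
    show h2.fromSpec z ∈ Set.range h1.fromSpec ↔ z ∈ Set.range (specHom X.ι₂).1
    rw [h1.range_fromSpec]
    constructor
    · intro hz
      have hzW : h2.fromSpec z ∈ Set.range hW.fromSpec :=
        hW.range_fromSpec.symm ▸ ⟨hz, h2.range_fromSpec ▸ Set.mem_range_self z⟩
      obtain ⟨w, hw⟩ := hzW
      rw [← e2] at hw
      exact ⟨w, h2.fromSpec.isOpenEmbedding.injective hw⟩
    · rintro ⟨w, rfl⟩
      have hzW : hW.fromSpec w ∈ (W : Set C.C) := hW.range_fromSpec ▸ Set.mem_range_self w
      rw [← e2] at hzW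
      exact hzW.1
  · have hid : specT k k ≫ ε.1 = ε.1 := by
      rw [specT, Algebra.algebraMap_self, CommRingCat.ofHom_id, Spec.map_id, Category.id_comp]
    rw [hid]
    show Spec.map (C.C.presheaf.germ U₁ P hPU ≫ σ) ≫ h1.fromSpec = e
    rw [Spec.map_comp, Category.assoc]
    exact (congrArg (Spec.map σ ≫ ·) (h1.fromSpecStalk_eq_fromSpecStalk hPU)).trans hst

end FLTAgent.PicScheme
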