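import Fermat.Agent.PicScheme.Curve.Basic

/-!
# Points of the curve and places of its function field
-/

set_option autoImplicit false
set_option linter.style.haveILetI false

noncomputable section

universe u

open CategoryTheory AlgebraicGeometry TopologicalSpace IsLocalRing AlgebraicCurve

namespace FLTAgent.PicScheme.Crv

variable {k : Type u} [Field k] [IsAlgClosed k] (X : Crv k)

/-- The place of a point other than the generic one. -/
def placeAt (z : X.C) (hz : z ≠ X.η) : Place k X.FF :=
  Curves.placeOfValuationSubring (X.valRing z) (X.algebraMap_mem_loc z) fun h =>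
    hz (X.eq_η_of_loc_eq_top (by
      ext f
      exact ⟨fun _ => Subring.mem_top f, fun _ => show f ∈ X.valRing z from h ▸ trivial⟩))

theorem mem_placeAt {z : X.C} {hz : z ≠ X.η} {f : X.FF} :
    f ∈ (X.placeAt z hz).toValuationSubring ↔ f ∈ X.loc z := Iff.rfl

variable (v : Place k X.FF)

/-- A morphism from the spectrum of a valuation ring extending the generic point. -/
def Extends (l : Spec (CommRingCat.of v.toValuationSubring) ⟶ X.C) : Prop :=
  Spec.map (CommRingCat.ofHom (algebraMap v.toValuationSubring X.FF)) ≫ l =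
    X.C.fromSpecStalk X.η

/-- The square of the valuative criterion. -/
def square : ValuativeCommSq X.c where
  R := v.toValuationSubring
  K := X.FF
  i₁ := X.C.fromSpecStalk X.η
  i₂ := Spec.map (CommRingCat.ofHom
    ((algebraMap k X.FF).codRestrict v.toValuationSubring.toSubring v.algebraMap_mem'))
  commSq := ⟨by
    rw [X.fromSpecStalk_c, ← Spec.map_comp]
    exact congrArg Spec.map (CommRingCat.hom_ext (RingHom.ext fun a => rfl))⟩

theorem exists_extends : ∃ l, X.Extends v l := by
  have h : ValuativeCriterion.Existence X.c := by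
    have : UniversallyClosed X.c := inferInstance
    rw [UniversallyClosed.eq_valuativeCriterion] at this
    exact this.1
  obtain ⟨⟨l, h1, -⟩⟩ := (h (X.square v)).exists_lift
  exact ⟨l, h1⟩

variable {X v} in
theorem Extends.unique {l l' : Spec (CommRingCat.of v.toValuationSubring) ⟶ X.C}
    (h : X.Extends v l) (h' : X.Extends v l') : l = l' := by
  have hc : ∀ {m}, X.Extends v m → m ≫ X.c = (X.square v).i₂ := fun {m} hm => by
    obtain ⟨ψ, hψ⟩ := Spec.map_surjective (m ≫ X.c)
    have h1 := congrArg (· ≫ X.c) hm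
    rw [Category.assoc, ← hψ, ← Spec.map_comp, X.fromSpecStalk_c] at h1
    show m ≫ X.c = Spec.map (CommRingCat.ofHom
      ((algebraMap k X.FF).codRestrict v.toValuationSubring.toSubring v.algebraMap_mem'))
    rw [← hψ]
    exact congrArg Spec.map (CommRingCat.hom_ext (RingHom.ext fun a => Subtype.ext
      (RingHom.congr_fun (congrArg CommRingCat.Hom.hom (Spec.map_injective h1)) a)))
  haveI := IsSeparated.valuativeCriterion X.c (X.square v)
  exact congrArg CommSq.LiftStruct.l
    (Subsingleton.elim (⟨l, h, hc h⟩ : (X.square v).commSq.LiftStruct) ⟨l', h', hc h'⟩)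

/-- The morphism extending the generic point. -/
def lift : Spec (CommRingCat.of v.toValuationSubring) ⟶ X.C := (X.exists_extends v).choose

theorem lift_extends : X.Extends v (X.lift v) := (X.exists_extends v).choose_spec

/-- The centre of a place. -/
def centre : X.C := X.lift v (closedPoint v.toValuationSubring)

theorem loc_centre : X.loc (X.centre v) = v.toValuationSubring.toSubring ∧ X.centre v ≠ X.η := by
  let σ : X.C.presheaf.stalk (X.centre v) ⟶ CommRingCat.of v.toValuationSubring :=
    Scheme.stalkClosedPointTo (R := CommRingCat.of v.toValuationSubring) (X.lift v)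
  haveI hloc : IsLocalHom σ.hom := Scheme.isLocalHom_stalkClosedPointTo' (X.lift v)
  have hst := Scheme.Spec_stalkClosedPointTo_fromSpecStalk
    (R := CommRingCat.of v.toValuationSubring) (X.lift v)
  have hσ : ∀ s, (σ.hom s : X.FF) = X.toFF (X.centre v) s := fun s => by
    have h1 := X.lift_extends v
    rw [Extends, ← hst, ← Category.assoc, ← Spec.map_comp,
      ← Scheme.SpecMap_stalkSpecializes_fromSpecStalk (X.specializes (X.centre v))] at h1
    exact RingHom.congr_fun (congrArg CommRingCat.Hom.hom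
      (Spec.map_injective ((cancel_mono (X.C.fromSpecStalk (X.centre v))).1 h1))) s
  have hle : X.loc (X.centre v) ≤ v.toValuationSubring.toSubring := by
    rintro _ ⟨s, rfl⟩
    exact hσ s ▸ (σ.hom s).2
  have hne : X.centre v ≠ X.η := fun he => v.ne_top' (by
    ext f
    refine ⟨fun _ => ValuationSubring.mem_top f, fun _ => hle ?_⟩
    rw [he]
    refine ⟨f, ?_⟩
    show X.C.presheaf.stalkSpecializes _ f = f
    rw [TopCat.Presheaf.stalkSpecializes_refl]
    rfl)
  refine ⟨le_antisymm hle fun f hf => ?_, hne⟩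
  rcases X.mem_or_inv_mem (X.centre v) f with h | ⟨t, ht⟩
  · exact h
  rcases eq_or_ne f 0 with rfl | hf0
  · exact zero_mem _
  have hu : IsUnit (σ.hom t) :=
    isUnit_iff_exists_inv.2 ⟨⟨f, hf⟩, Subtype.ext (show (σ.hom t : X.FF) * f = 1 from by
      exact (congrArg (· * f) ((hσ t).trans ht)).trans (inv_mul_cancel₀ hf0))⟩
  obtain ⟨w, hw⟩ := (hloc.map_nonunit t hu).exists_right_inv
  refine ⟨w, ?_⟩
  have h2 := congrArg (X.toFF (X.centre v)) hw
  have h3 : X.toFF (X.centre v) t * X.toFF (X.centre v) w = 1 :=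
    ((map_mul (X.toFF (X.centre v)) t w).symm.trans h2).trans (map_one _)
  rw [ht] at h3
  exact ((inv_mul_eq_iff_eq_mul₀ hf0).1 h3).trans (mul_one f)

/-- A point with local ring inside that of a place, not inverting its maximal ideal, is its
centre. -/
theorem eq_centre {z : X.C} (h : X.loc z = v.toValuationSubring.toSubring) :
    z = X.centre v := by
  let e : X.C.presheaf.stalk z →+* v.toValuationSubring :=
    (X.toFF z).codRestrict v.toValuationSubring.toSubring fun s => h ▸ ⟨s, rfl⟩
  have he : Function.Bijective e := by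
    refine ⟨fun a b hab => X.toFF_injective z (congrArg Subtype.val hab), fun f => ?_⟩
    have hf : (f : X.FF) ∈ X.loc z := h ▸ f.2
    obtain ⟨s, hs⟩ := hf
    exact ⟨s, Subtype.ext hs⟩
  haveI : IsLocalHom e := ⟨fun a ha => by
    have h' := ha.map (RingEquiv.ofBijective e he).symm
    rwa [show (RingEquiv.ofBijective e he).symm (e a) = a from
      (RingEquiv.ofBijective e he).symm_apply_apply a] at h'⟩
  have hext : X.Extends v (Spec.map (CommRingCat.ofHom e) ≫ X.C.fromSpecStalk z) := by
    rw [Extends, ← Category.assoc, ← Spec.map_comp,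
      ← Scheme.SpecMap_stalkSpecializes_fromSpecStalk (X.specializes z)]
    rfl
  have h1 : Spec.map (CommRingCat.ofHom e) ≫ X.C.fromSpecStalk z = X.lift v :=
    hext.unique (X.lift_extends v)
  rw [centre, ← h1]
  show z = X.C.fromSpecStalk z (PrimeSpectrum.comap e (closedPoint v.toValuationSubring))
  rw [IsLocalRing.comap_closedPoint, Scheme.fromSpecStalk_closedPoint]

/-- Places are the points other than the generic one. -/
def placeEquiv : Place k X.FF ≃ {z : X.C // z ≠ X.η} where
  toFun v := ⟨X.centre v, (X.loc_centre v).2⟩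
  invFun z := X.placeAt z.1 z.2
  left_inv v := Place.ext (SetLike.ext fun f => (SetLike.ext_iff.1 (X.loc_centre v).1 f))
  right_inv z := Subtype.ext (X.eq_centre (X.placeAt z.1 z.2) rfl).symm

theorem centre_injective : Function.Injective X.centre := fun _ _ h =>
  X.placeEquiv.injective (Subtype.ext h)

theorem mem_loc_centre {f : X.FF} : f ∈ X.loc (X.centre v) ↔ Curves.OrdGE v 0 f := by
  rw [(X.loc_centre v).1]
  exact Curves.ordGE_zero_iff_mem.symm

theorem centre_placeAt (z : X.C) (hz : z ≠ X.η) : X.centre (X.placeAt z hz) = z :=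
  congrArg Subtype.val (X.placeEquiv.apply_symm_apply ⟨z, hz⟩)

theorem isClosed_singleton {z : X.C} (hz : z ≠ X.η) : IsClosed ({z} : Set X.C) := by
  refine closure_subset_iff_isClosed.1 fun w hw => ?_
  have h : z ⤳ w := specializes_iff_mem_closure.2 hw
  have hw' : w ≠ X.η := fun e => hz
    ((e ▸ h : z ⤳ X.η).antisymm (X.specializes z)).eq
  have h1 : X.placeAt w hw' = X.placeAt z hz := Curves.place_eq_of_le (X.loc_le h)
  rw [Set.mem_singleton_iff]
  simpa [centre_placeAt] using congrArg X.centre h1

theorem centre_mem_of_forall_mem {V : X.C.Opens} (hV : IsAffineOpen V) [Nonempty V]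
    (h : ∀ s, X.C.germToFunctionField V s ∈ v.toValuationSubring) : X.centre v ∈ V := by
  let ψ : Γ(X.C, V) →+* v.toValuationSubring :=
    (X.C.germToFunctionField V).hom.codRestrict v.toValuationSubring.toSubring h
  have hη : X.η ∈ V := ((genericPoint_spec X.C).mem_open_set_iff V.isOpen).mpr
    (by simpa using ‹Nonempty V›)
  have hext : X.Extends v (Spec.map (CommRingCat.ofHom ψ) ≫ hV.fromSpec) := by
    rw [Extends, ← Category.assoc, ← Spec.map_comp, ← hV.fromSpecStalk_eq_fromSpecStalk hη]
    rfl
  have h1 : Spec.map (CommRingCat.ofHom ψ) ≫ hV.fromSpec = X.lift v :=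
    hext.unique (X.lift_extends v)
  have h2 : X.centre v ∈ Set.range hV.fromSpec := ⟨_, (congrArg (fun l : _ ⟶ X.C =>
    l (closedPoint v.toValuationSubring)) h1)⟩
  rwa [IsAffineOpen.range_fromSpec] at h2

theorem finite_compl {U : X.C.Opens} (hU : (U : Set X.C).Nonempty) :
    {v : Place k X.FF | X.centre v ∉ U}.Finite := by
  have hη : X.η ∈ U := ((genericPoint_spec X.C).mem_open_set_iff U.isOpen).mpr (by simpa using hU)
  obtain ⟨_, ⟨V, hV, rfl⟩, hxV, hVU⟩ := X.C.isBasis_affineOpens.exists_subset_of_mem_open hη U.2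
  haveI : Nonempty V := ⟨⟨_, hxV⟩⟩
  letI : Algebra k Γ(X.C, V) := (AV.Var.baseHom X.c V).toAlgebra
  obtain ⟨T, hT⟩ : ∃ T : Finset Γ(X.C, V), Algebra.adjoin k (T : Set Γ(X.C, V)) = ⊤ := by
    have : Algebra.FiniteType k Γ(X.C, V) := by
      have h := LocallyOfFiniteType.finiteType_appLE X.c (isAffineOpen_top _) hV le_top
      exact (RingHom.finiteType_respectsIso.cancel_left_isIso
        (Scheme.ΓSpecIso (CommRingCat.of k)).inv _).2 h
    exact this.out
  refine (T.finite_toSet.biUnion fun s _ =>
    Curves.finite_poles (K := k) (X.C.germToFunctionField V s)).subset fun v hv => ?_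
  by_contra hn
  simp only [Finset.mem_coe, Set.mem_iUnion, Set.mem_setOf_eq, exists_prop, not_exists, not_and,
    not_lt] at hn
  refine hv (hVU (X.centre_mem_of_forall_mem v hV fun s => ?_))
  have hs : s ∈ Algebra.adjoin k (T : Set Γ(X.C, V)) := hT ▸ trivial
  induction hs using Algebra.adjoin_induction with
  | mem s hs => exact Curves.ordGE_zero_iff_mem.1 (Curves.ordGE_of_le (hn s hs))
  | algebraMap a =>
      rw [RingHom.algebraMap_toAlgebra, X.germToFF_const]
      exact v.algebraMap_mem' a
  | add a b _ _ ha hb => rw [map_add]; exact add_mem ha hb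
  | mul a b _ _ ha hb => rw [map_mul]; exact mul_mem ha hb

theorem mem_iff_exists {U : X.C.Opens} {f : X.FF} [Nonempty U] :
    (∃ s, X.C.germToFunctionField U s = f) ↔
      ∀ v : Place k X.FF, X.centre v ∈ U → Curves.OrdGE v 0 f := by
  refine ⟨?_, fun h => ?_⟩
  · rintro ⟨s, rfl⟩ v hv
    exact (X.mem_loc_centre v).1 ⟨_, X.toFF_germ hv s⟩
  have hloc : ∀ z ∈ U, ∃ s, X.toFF z s = f := by
    intro z hz
    by_cases he : z = X.η
    · subst he
      exact ⟨f, by show X.C.presheaf.stalkSpecializes _ f = f
                   rw [TopCat.Presheaf.stalkSpecializes_refl]; rfl⟩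
    · have := (X.mem_loc_centre _).2 (h (X.placeAt z he) (by rwa [centre_placeAt]))
      rwa [centre_placeAt] at this
  have H : ∀ z : U, ∃ (W : X.C.Opens) (_ : W ≤ U) (hW : z.1 ∈ W) (s : Γ(X.C, W)),
      X.toFF z (X.C.presheaf.germ W z hW s) = f := by
    intro z
    obtain ⟨t, ht⟩ := hloc z z.2
    obtain ⟨W, hW, s, rfl⟩ := X.C.presheaf.exists_germ_eq t
    exact ⟨W ⊓ U, inf_le_right, ⟨hW, z.2⟩, X.C.presheaf.map (homOfLE inf_le_left).op s,
      (congrArg (X.toFF z.1)
        (TopCat.Presheaf.germ_res_apply X.C.presheaf (homOfLE inf_le_left) _ ⟨hW, z.2⟩ s)).trans ht⟩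
  choose W hWU hW s hs using H
  have hne : ∀ z, Nonempty (W z) := fun z => ⟨⟨_, hW z⟩⟩
  have hcompat : TopCat.Presheaf.IsCompatible X.C.sheaf.obj W s := by
    intro a b
    have hab : X.η ∈ W a ⊓ W b := ⟨
      ((genericPoint_spec X.C).mem_open_set_iff (W a).isOpen).mpr ⟨_, trivial, hW a⟩,
      ((genericPoint_spec X.C).mem_open_set_iff (W b).isOpen).mpr ⟨_, trivial, hW b⟩⟩
    haveI := hne a
    haveI := hne b
    apply germ_injective_of_isIntegral X.C X.η hab
    show X.C.presheaf.germ _ _ _ (X.C.presheaf.map _ _) = X.C.presheaf.germ _ _ _ (X.C.presheaf.map _ _)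
    rw [TopCat.Presheaf.germ_res_apply, TopCat.Presheaf.germ_res_apply]
    exact ((X.toFF_germ (hW a) (s a)).symm.trans (hs a)).trans
      ((X.toFF_germ (hW b) (s b)).symm.trans (hs b)).symm
  obtain ⟨t, ht, -⟩ := X.C.sheaf.existsUnique_gluing' W U (fun z => homOfLE (hWU z))
    (fun z hz => Opens.mem_iSup.2 ⟨⟨z, hz⟩, hW _⟩) s hcompat
  refine ⟨t, ?_⟩
  obtain ⟨z⟩ : Nonempty U := inferInstance
  haveI := hne z
  rw [← X.toFF_germ z.2 t, ← hs z, ← ht z]
  exact congrArg (X.toFF z.1) (TopCat.Presheaf.germ_res_apply X.C.presheaf _ _ (hW z) t).symm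

end FLTAgent.PicScheme.Crv
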