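import Fermat.Agent.PicScheme.Curve.Points
import Fermat.Agent.Curves.ReducedBasis

/-!
# The open set where a function is regular

It is affine, and its coordinate ring is finite over the polynomials in the function.
-/

set_option autoImplicit false
set_option linter.style.haveILetI false

noncomputable section

universe u

open CategoryTheory AlgebraicGeometry TopologicalSpace IsLocalRing AlgebraicCurve Polynomial

namespace FLTAgent.PicScheme

variable {K F : Type*} [Field K] [Field F] [Algebra K F] [IsAlgClosed K]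
  [Curves.IsFunctionField K F]

/-- A function regular where `x` is, a unit at `v` and zero at the places of `T`. -/
theorem exists_integral_separating {x : F} (hx : Transcendental K x) (v : Place K F)
    (hv : 0 ≤ v.ord x) (T : Finset (Place K F)) (hT : v ∉ T) :
    ∃ f : F, Curves.IntegralWrt K x f ∧ f ≠ 0 ∧ v.ord f = 0 ∧
      ∀ t ∈ T, 0 ≤ t.ord x → 0 < t.ord f := by
  classical
  have H : ∀ u : Place K F, ∃ c : K, 0 ≤ u.ord x → Curves.OrdGE u 1 (x - algebraMap K F c) :=
    fun u => by
      by_cases h : 0 ≤ u.ord x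
      · obtain ⟨c, hc⟩ := Curves.exists_residue u (Curves.ordGE_of_le h)
        exact ⟨c, fun _ => hc⟩
      · exact ⟨0, fun h' => absurd h' h⟩
  choose c hc using H
  have hxc : ∀ a : K, x - algebraMap K F a ≠ 0 := fun a h =>
    hx ⟨X - Polynomial.C a, X_sub_C_ne_zero a, by simpa using h⟩
  set Z := (Curves.finite_zeros (K := K) (x - algebraMap K F (c v))).toFinset
  obtain ⟨η, hη1, hη0, hηs⟩ :=
    Curves.exists_approx_one v ((T ∪ Z).erase v) (Finset.notMem_erase _ _) 1
  have hv1 : v.ord η = 0 ∧ η ≠ 0 := by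
    have h := Curves.ord_add_eq_left (v := v) (one_ne_zero (α := F)) (g := η - 1)
      (hη1.imp_right fun h => by rw [v.ord_one]; exact lt_of_lt_of_le (by simp) h)
    simpa [v.ord_one] using h
  set P := ((Curves.finite_poles (K := K) η).toFinset.filter fun u => 0 ≤ u.ord x) with hP
  set q : K[X] := ∏ u ∈ P, (X - Polynomial.C (c u)) ^ (u.ord η).natAbs with hq
  have hne : ∀ u ∈ P, c u ≠ c v := by
    intro u hu he
    obtain ⟨hu1, hu2⟩ := Finset.mem_filter.1 hu
    have hneg : u.ord η < 0 := (Curves.finite_poles (K := K) η).mem_toFinset.1 hu1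
    have huZ : u ∈ Z := (Set.Finite.mem_toFinset _).2 (he ▸ (hc u hu2).le_ord (hxc _))
    by_cases huv : u = v
    · subst huv; omega
    · have := (hηs u (Finset.mem_erase.2 ⟨huv, Finset.mem_union_right _ huZ⟩)).le_ord hv1.2
      omega
  have hqv : aeval x q ≠ 0 ∧ v.ord (aeval x q) = 0 := by
    rw [hq, map_prod]
    refine Finset.prod_induction _ (fun f => f ≠ 0 ∧ v.ord f = 0)
      (fun a b ha hb => ⟨mul_ne_zero ha.1 hb.1, by rw [v.ord_mul ha.1 hb.1, ha.2, hb.2]; rfl⟩)
      ⟨one_ne_zero, v.ord_one⟩ fun u hu => ?_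
    rw [map_pow, map_sub, aeval_X, aeval_C, Curves.ord_pow]
    refine ⟨pow_ne_zero _ (hxc _), ?_⟩
    have hd : algebraMap K F (c v - c u) ≠ 0 := by
      simpa [sub_eq_zero] using (hne u hu).symm
    have h := Curves.ord_add_eq_left (v := v) hd (g := x - algebraMap K F (c v))
      ((hc v hv).imp_right fun h => by rw [Curves.ord_algebraMap]; omega)
    rw [Curves.ord_algebraMap, map_sub,
      show algebraMap K F (c v) - algebraMap K F (c u) + (x - algebraMap K F (c v)) =
        x - algebraMap K F (c u) by ring] at h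
    rw [h.1, mul_zero]
  refine ⟨aeval x q * η, fun u hu => ?_, mul_ne_zero hqv.1 hv1.2,
    by rw [v.ord_mul hqv.1 hv1.2, hqv.2, hv1.1]; rfl, fun t ht htx => ?_⟩
  · by_cases huP : u ∈ P
    · have hneg : u.ord η < 0 :=
        (Curves.finite_poles (K := K) η).mem_toFinset.1 (Finset.mem_filter.1 huP).1
      rw [hq, ← Finset.mul_prod_erase _ _ huP, map_mul, map_pow, map_sub, aeval_X, aeval_C]
      refine ((((hc u hu).pow _).mul (Curves.ordGE_aeval hu _)).mul (Curves.ordGE_ord u η)).mono ?_
      rw [mul_one, add_zero]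
      omega
    · refine ((Curves.ordGE_aeval hu q).mul (Curves.ordGE_ord u η)).mono ?_
      have : ¬ u.ord η < 0 := fun h =>
        huP (Finset.mem_filter.2 ⟨(Curves.finite_poles (K := K) η).mem_toFinset.2 h, hu⟩)
      omega
  · have htv : t ≠ v := fun h => hT (h ▸ ht)
    have h1 := ((Curves.ordGE_aeval htx q).mul
      (hηs t (Finset.mem_erase.2 ⟨htv, Finset.mem_union_left _ ht⟩))).le_ord
      (mul_ne_zero hqv.1 hv1.2)
    omega

namespace Crv

variable {k : Type u} [Field k] [IsAlgClosed k] (C : Crv k)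

theorem η_mem {U : C.C.Opens} (hU : (U : Set C.C).Nonempty) : C.η ∈ U :=
  ((genericPoint_spec C.C).mem_open_set_iff U.isOpen).mpr (by simpa using hU)

/-- The points at which `x` is regular. -/
def reg (x : C.FF) : C.C.Opens where
  carrier := (C.centre '' {v | v.ord x < 0})ᶜ
  is_open' := by
    rw [isOpen_compl_iff]
    have h := ((Curves.finite_poles (K := k) x).image C.centre)
    rw [← Set.biUnion_of_singleton (C.centre '' {v | v.ord x < 0})]
    exact h.isClosed_biUnion fun z ⟨v, _, hv⟩ =>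
      C.isClosed_singleton (hv ▸ (C.loc_centre v).2)

variable {C} {x : C.FF}

theorem centre_mem_reg {v : Place k C.FF} : C.centre v ∈ C.reg x ↔ 0 ≤ v.ord x := by
  show C.centre v ∉ C.centre '' {v | v.ord x < 0} ↔ _
  rw [C.centre_injective.mem_set_image]
  exact ⟨fun h => not_lt.1 h, fun h (h' : v.ord x < 0) => not_lt.2 h h'⟩

theorem η_mem_reg : C.η ∈ C.reg x := fun ⟨v, _, hv⟩ => (C.loc_centre v).2 hv

instance : Nonempty (C.reg x) := ⟨⟨C.η, η_mem_reg⟩⟩

theorem mem_range_reg {f : C.FF} :
    (∃ s, C.C.germToFunctionField (C.reg x) s = f) ↔ Curves.IntegralWrt k x f :=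
  C.mem_iff_exists.trans ⟨fun h v hv => h v (centre_mem_reg.2 hv),
    fun h v hv => h v (centre_mem_reg.1 hv)⟩

theorem integralWrt_self : Curves.IntegralWrt k x x := fun _ hv => Curves.ordGE_of_le hv

theorem centre_mem_basicOpen {U : C.C.Opens} [Nonempty U] {s : Γ(C.C, U)} {v : Place k C.FF}
    (hv : C.centre v ∈ U) :
    C.centre v ∈ C.C.basicOpen s ↔ C.C.germToFunctionField U s ≠ 0 ∧
      v.ord (C.C.germToFunctionField U s) = 0 := by
  rw [Scheme.mem_basicOpen C.C s _ hv]
  have e : C.toFF (C.centre v) (C.C.presheaf.germ U _ hv s) = C.C.germToFunctionField U s :=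
    C.toFF_germ hv s
  constructor
  · intro hu
    have h0 := (hu.map (C.toFF (C.centre v))).ne_zero
    rw [e] at h0
    have h1 := ((C.mem_loc_centre v).1 ⟨_, e⟩).le_ord h0
    obtain ⟨w, hw⟩ := hu.exists_right_inv
    have hw' : C.C.germToFunctionField U s * C.toFF _ w = 1 := by
      rw [← e, ← map_mul, hw, map_one]
    have h2 := ((C.mem_loc_centre v).1 ⟨w, rfl⟩).le_ord (right_ne_zero_of_mul_eq_one hw')
    have h3 := congrArg v.ord hw'
    rw [v.ord_mul h0 (right_ne_zero_of_mul_eq_one hw'), v.ord_one] at h3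
    exact ⟨h0, by omega⟩
  · rintro ⟨h0, h1⟩
    obtain ⟨w, hw⟩ := (C.mem_loc_centre v).2
      (Curves.ordGE_of_le (show 0 ≤ v.ord (C.C.germToFunctionField U s)⁻¹ by
        rw [v.ord_inv, h1]; rfl))
    refine isUnit_iff_exists_inv.2 ⟨w, C.toFF_injective _ ?_⟩
    rw [map_mul, e, hw, mul_inv_cancel₀ h0, map_one]

theorem isAffineOpen_reg (hx : Transcendental k x) : IsAffineOpen (C.reg x) := by
  classical
  let s : Set Γ(C.C, C.reg x) := {f | IsAffineOpen (C.C.basicOpen f)}
  refine isAffineOpen_of_isAffineOpen_basicOpen _ s ?_ fun f hf => hf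
  have hkey : ∀ v : Place k C.FF, 0 ≤ v.ord x → ∃ f ∈ s,
      C.C.germToFunctionField (C.reg x) f ≠ 0 ∧
        v.ord (C.C.germToFunctionField (C.reg x) f) = 0 := by
    intro v hv
    obtain ⟨V, hV, hzV, hVU'⟩ := exists_isAffineOpen_mem_and_subset (centre_mem_reg.2 hv)
    have hVU : V ≤ C.reg x := hVU'
    obtain ⟨f, hf, hf0, hfv, hfT⟩ := exists_integral_separating hx v hv
      (C.finite_compl (U := V) ⟨_, hzV⟩).toFinset fun h => (Set.Finite.mem_toFinset _).1 h hzV
    obtain ⟨g, hg⟩ := mem_range_reg.2 hf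
    refine ⟨g, ?_, hg ▸ hf0, hg ▸ hfv⟩
    have hle : C.C.basicOpen g ≤ V := by
      intro w hw
      by_cases he : w = C.η
      · exact he ▸ C.η_mem ⟨_, hzV⟩
      · by_contra hwV
        have hwU : C.centre (C.placeAt w he) ∈ C.reg x := by
          rw [C.centre_placeAt]; exact C.C.basicOpen_le g hw
        have h1 := (centre_mem_basicOpen hwU).1 (show C.centre (C.placeAt w he) ∈ C.C.basicOpen g by
          rwa [C.centre_placeAt])
        have h2 := hfT (C.placeAt w he) ((Set.Finite.mem_toFinset _).2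
          (show C.centre (C.placeAt w he) ∉ V by rwa [C.centre_placeAt]))
          (centre_mem_reg.1 hwU)
        rw [hg] at h1
        omega
    have hres : C.C.basicOpen (C.C.presheaf.map (homOfLE hVU).op g) = C.C.basicOpen g := by
      rw [Scheme.basicOpen_res]
      exact inf_eq_right.2 hle
    show IsAffineOpen _
    rw [← hres]
    exact hV.basicOpen _
  by_contra hI
  let φ := (C.C.germToFunctionField (C.reg x)).hom
  have hφ : Function.Injective φ := Scheme.germToFunctionField_injective C.C (C.reg x)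
  have hb : Function.Bijective φ.rangeRestrict :=
    ⟨fun a b h => hφ (congrArg Subtype.val h), φ.rangeRestrict_surjective⟩
  let e := RingEquiv.ofBijective φ.rangeRestrict hb
  obtain ⟨B, hAB, hIB⟩ := Ideal.image_subset_nonunits_valuationSubring (A := φ.range)
    ((Ideal.span s).comap e.symm.toRingHom)
    (fun h => hI (by
      rw [Ideal.eq_top_iff_one] at h ⊢
      simpa using h))
  have hnon : ∀ f ∈ s, φ f ∈ B.nonunits := fun f hf => hIB ⟨⟨φ f, f, rfl⟩, by
    show e.symm (e f) ∈ Ideal.span s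
    rw [e.symm_apply_apply]
    exact Ideal.subset_span hf, rfl⟩
  have hAmem : ∀ f, Curves.IntegralWrt k x f → f ∈ B := fun f hf =>
    hAB (mem_range_reg.2 hf)
  have hB : B ≠ ⊤ := by
    obtain ⟨v, hv⟩ := Curves.exists_ord_pos (K := k) hx
    obtain ⟨f, hfs, hf0, -⟩ := hkey v hv.le
    rintro rfl
    have h := hnon f hfs
    rw [ValuationSubring.mem_nonunits_iff] at h
    have h1 : (⊤ : ValuationSubring C.FF).valuation (φ f)⁻¹ ≤ 1 :=
      (ValuationSubring.valuation_le_one_iff _ _).2 (ValuationSubring.mem_top _)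
    rw [map_inv₀, inv_le_one₀ (zero_lt_iff.2 ((Valuation.ne_zero_iff _).2 hf0))] at h1
    exact h1.not_gt h
  let v := Curves.placeOfValuationSubring B
    (fun a => hAmem _ fun u _ => Curves.ordGE_algebraMap u a) hB
  have hvx : 0 ≤ v.ord x :=
    (Curves.mem_iff_ord_nonneg (Curves.ne_zero_of_transcendental hx)).1 (hAmem x integralWrt_self)
  obtain ⟨f, hfs, hf0, hfv⟩ := hkey v hvx
  have h := hnon f hfs
  rw [ValuationSubring.mem_nonunits_iff] at h
  have hinv : (φ f)⁻¹ ∈ v.toValuationSubring :=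
    (Curves.mem_iff_ord_nonneg (inv_ne_zero hf0)).2 (by rw [v.ord_inv]; exact (neg_eq_zero.2 hfv).ge)
  have h1 : B.valuation (φ f)⁻¹ ≤ 1 := (B.valuation_le_one_iff _).2 hinv
  rw [map_inv₀, inv_le_one₀ (zero_lt_iff.2 ((Valuation.ne_zero_iff _).2 hf0))] at h1
  exact h1.not_gt h

end Crv

end FLTAgent.PicScheme
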